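/-
S59lib / MRp / Assembly  (helper6)  — Project I, block `MRpBlock` (Mazur–Ribet at `p`, good reduction at `p`):
THE INTERFACE AND THE ASSEMBLY.

`W/ℤ` an integral model, `p` odd, `W[p]` irreducible, `p ∥ N`, `ρ̄` residually modular of level `N`.

* `LocalOrdAt W p A` — the local input at a place `A ∣ p`, ORDINARY shape (the conclusion of `S44lib.Q3Stmt`
  with the Frey module replaced by `W[p]`): every point of `W[p]` is rational over `K₁(w)`, `wᵖ` a unit of the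
  inertia field; `W[p]` is an extension of a non-zero `I_A`-trivial quotient by an `I_A`-stable subgroup `L`
  fixed pointwise by `I₁` (`L = E₁[p]`, the kernel of reduction, for `W` good ordinary at `p`).
* `InertiaIrredAt W p A` — SUPERSINGULAR shape: `W[p]` has no proper non-zero `I_A`-stable subgroup.
* `resMod_div_of_package` — **PROVED**: `Q1W` + `NonEisW` + `LocalOrdAt W p A` + a geometric package
  `S44lib.PsiPackage N p A`  ⟹  `ρ̄` residually modular of level `N / p`  (the proof of `S44lib.s44_of_stmts`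
  for `W[p]`; no old/new split of the eigenform is needed).
* `LocalAtPStmt` — for `W` good at `p ∈ {3, 5}`: one of the two shapes holds at every place over `p`
  (height of the formal group `1` or `2`).
* `mrpBlock_of_stmts` — **PROVED**: `Q1W`, `NonEisW`, `LocalAtPStmt`, `S44lib.GeomQStmt`
  (`p = 5`; on main) and `P3.Geom3.geomQ3` (`p = 3`, levels `4 ∣ N`) ⟹ helper7's `MRpBlock` (good reduction
  at `p`, `ρ̄|I_p` NOT irreducible: the supersingular case is carried in the level, block FLAT-SS).  At `p = 3`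
  the rigidifier `4` is added to the level (`2 M` or `4 M`) and STAYS in the output level (allowed by `MRpBlock`).
-/
import Mathlib
import Fermat.Agent.S59lib.Iface
import Fermat.Agent.S59lib.LevelQ2.Iface
import Fermat.Agent.S59lib.P3.Geom3.Old
import Fermat.Agent.S43lib.Theta.Level

set_option autoImplicit false
set_option linter.unusedSectionVars false
set_option linter.style.haveILetI false

noncomputable section

namespace Fermat.Agent.S59lib.MRp

open ModularCurve Fermat.Agent.S19lib Fermat.Agent.S33lib Fermat.Agent.S44lib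
open Fermat.Agent.S59lib.LevelQ2
open WeierstrassCurve WeierstrassCurve.Affine WeierstrassCurve.Affine.Point

local notation "Qb" => AlgebraicClosure ℚ
local notation "GQ" => (AlgebraicClosure ℚ ≃ₐ[ℚ] AlgebraicClosure ℚ)
local notation "Zbar" => integralClosure ℤ ℂ

/-! ### the local inputs at `p` -/

/-- **the local input at `A ∣ p`, ordinary shape** (the conclusion of `S44lib.Q3Stmt` for `W[p]`). -/
def LocalOrdAt (W : WeierstrassCurve ℤ) (p : ℕ) (A : ValuationSubring Qb) : Prop :=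
  (∀ x : WTors W p, ∃ w : Qb, IsUnitRoot A p w ∧ FixedOver A p w x) ∧
    ∃ L : AddSubgroup (WTors W p), L ≠ ⊤ ∧ (∀ σ ∈ IA A, ∀ x ∈ L, σ • x ∈ L) ∧
      (∀ σ ∈ IA A, ∀ x : WTors W p, σ • x - x ∈ L) ∧
      (∀ σ ∈ IOne A p, ∀ x ∈ L, σ • x = x)

/-- **the local input at `A ∣ p`, supersingular shape**: `W[p]` is irreducible under the inertia group. -/
def InertiaIrredAt (W : WeierstrassCurve ℤ) (p : ℕ) (A : ValuationSubring Qb) : Prop :=
  ∀ L : AddSubgroup (WTors W p), (∀ σ ∈ IA A, ∀ x ∈ L, σ • x ∈ L) → L = ⊥ ∨ L = ⊤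

/-- **the local statement at `p`** for a curve with good reduction at `p`: ordinary or supersingular shape. -/
def LocalAtPStmt : Prop :=
  ∀ (p : ℕ), (p = 3 ∨ p = 5) → ∀ (W : WeierstrassCurve ℤ), W.Δ ≠ 0 → W.IsSemistableModel →
    W.ModRepIsIrreducible p → W.IsGoodPrimeFor p →
    ∀ A : ValuationSubring Qb, A.LiesOverPrime p → LocalOrdAt W p A ∨ InertiaIrredAt W p A

/-! ### the ordinary case: assembly over a geometric package -/

/-- **Mazur–Ribet at `p`, ordinary shape, over a geometric package.** -/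
theorem resMod_div_of_package (hQ1 : Q1WStmt) (hne : NonEisWStmt) {p : ℕ} (hp : p.Prime)
    (hp2 : p ≠ 2) (W : WeierstrassCurve ℤ) (hΔ : W.Δ ≠ 0) (hirr : W.ModRepIsIrreducible p)
    {N : ℕ} [NeZero N] (hpN : p ∣ N) {A : ValuationSubring Qb}
    (hloc : LocalOrdAt W p A) (G : PsiPackage N p A)
    (hres : W.IsResiduallyModularOfLevel p N) : W.IsResiduallyModularOfLevel p (N / p) := by
  obtain ⟨f, 𝔪, hf, h𝔪, hp𝔪, hcong⟩ := hres
  have hcong' : CongruentTo f 𝔪 W.apOfModel (IsTestPrime W N p) :=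
    fun ℓ hℓ => hcong ℓ hℓ.1 hℓ.2.1 hℓ.2.2.1 hℓ.2.2.2
  obtain ⟨V, e, hVt, he, hVeig⟩ := hQ1 p hp hp2 W hΔ hirr N f 𝔪 hf h𝔪 hp𝔪 hcong'
  obtain ⟨hpeuE, LE, hLEtop, hLEst, hLEtriv, hLE1⟩ := hloc
  -- transport of the local structure to `V`
  have hsmulV : ∀ (σ : GQ) (x : JZero N), x ∈ V → σ • x ∈ V := by
    intro σ x hx
    have := he σ (e.symm ⟨x, hx⟩)
    rw [AddEquiv.apply_symm_apply] at this
    rw [← this]
    exact (e _).2
  let L : AddSubgroup (JZero N) := (LE.map e.toAddMonoidHom).map V.subtype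
  have hmemL : ∀ y : WTors W p, ((e y : V) : JZero N) ∈ L ↔ y ∈ LE := by
    intro y
    constructor
    · rintro ⟨v, ⟨y', hy', rfl⟩, hv⟩
      have : e y' = e y := Subtype.ext hv
      rwa [← e.injective this]
    · intro hy
      exact ⟨e y, ⟨y, hy, rfl⟩, rfl⟩
  have hLV : L ≤ V := by
    rintro _ ⟨v, -, rfl⟩
    exact v.2
  have hLne : ¬ V ≤ L := by
    intro h
    apply hLEtop
    rw [eq_top_iff]
    intro y _
    exact (hmemL y).1 (h (e y).2)
  have hLst : ∀ σ ∈ IA A, ∀ x ∈ L, σ • x ∈ L := by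
    rintro σ hσ _ ⟨v, ⟨y, hy, rfl⟩, rfl⟩
    show σ • ((e y : V) : JZero N) ∈ L
    rw [← he σ y]
    exact (hmemL _).2 (hLEst σ hσ y hy)
  have htriv : ∀ σ ∈ IA A, ∀ x ∈ V, σ • x - x ∈ L := by
    intro σ hσ x hx
    obtain ⟨y, rfl⟩ : ∃ y, ((e y : V) : JZero N) = x := ⟨e.symm ⟨x, hx⟩, by simp⟩
    rw [← he σ y]
    have : ((e (σ • y) : V) : JZero N) - ((e y : V) : JZero N) = ((e (σ • y - y) : V) : JZero N) := by
      rw [map_sub]
      rfl
    rw [this]
    exact (hmemL _).2 (hLEtriv σ hσ y)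
  have hL1 : ∀ σ ∈ IOne A p, ∀ x ∈ L, σ • x = x := by
    rintro σ hσ _ ⟨v, ⟨y, hy, rfl⟩, rfl⟩
    show σ • ((e y : V) : JZero N) = ((e y : V) : JZero N)
    rw [← he σ y, hLE1 σ hσ y hy]
  have hpeu : ∀ x ∈ V, ∃ w : Qb, IsUnitRoot A p w ∧ FixedOver A p w x := by
    intro x hx
    obtain ⟨y, rfl⟩ : ∃ y, ((e y : V) : JZero N) = x := ⟨e.symm ⟨x, hx⟩, by simp⟩
    obtain ⟨w, hw, hfix⟩ := hpeuE y
    refine ⟨w, hw, fun σ hσ hσw => ?_⟩
    rw [← he σ y, hfix σ hσ hσw]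
  -- the eigenvector and the old form
  have hnonE := hne p hp hp2 W hΔ hirr N (Nat.pos_of_ne_zero (NeZero.ne N))
  obtain ⟨x, hxT, hω0, hωres, hωeig⟩ := exists_eigen_of_package hp G V L hVt hLV hLne hLst
    (fun σ _ x hx => hsmulV σ x hx) htriv hL1 hpeu W.apOfModel (IsTestPrime W N p)
    (fun ℓ hℓ => ⟨hℓ.1, hℓ.2.2.1, hℓ.2.2.2⟩)
    (fun ℓ hℓ hS x hx => hVeig ℓ hℓ hS x hx) hnonE
  obtain ⟨g, 𝔪', hg, h𝔪', hp𝔪', hcongg⟩ := G.old x hxT hω0 hωres W.apOfModel (IsTestPrime W N p)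
    (fun ℓ hℓ => ⟨hℓ.1, hℓ.2.2.1, hℓ.2.2.2⟩) hnonE hωeig
  refine ⟨g, 𝔪', hg, h𝔪', hp𝔪', fun ℓ hℓ hgood hℓM hℓp => ?_⟩
  refine hcongg ℓ ⟨hℓ, hgood, fun hℓN => ?_, hℓp⟩
  -- `ℓ ∣ N`, `ℓ ≠ p` prime ⟹ `ℓ ∣ N / p`
  have hN : N = p * (N / p) := (Nat.mul_div_cancel' hpN).symm
  rw [hN] at hℓN
  rcases (Nat.Prime.dvd_mul hℓ).1 hℓN with h | h
  · exact hℓp ((Nat.prime_dvd_prime_iff_eq hℓ hp).1 h)
  · exact hℓM h

/-! ### level bookkeeping -/

/-- adding primes to the level (`S43lib.Theta.exists_eigenform_of_dvd`) -/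
theorem resMod_mul_right {W : WeierstrassCurve ℤ} {p M : ℕ} (hM : M ≠ 0) {s : ℕ} (hs : s ≠ 0)
    (h : W.IsResiduallyModularOfLevel p M) : W.IsResiduallyModularOfLevel p (M * s) := by
  have : NeZero M := ⟨hM⟩
  obtain ⟨f, 𝔪, hf, h𝔪, hp𝔪, hcong⟩ := h
  obtain ⟨f', hf', hc⟩ := Fermat.Agent.S43lib.Theta.exists_eigenform_of_dvd (Dvd.intro s rfl)
    (Nat.mul_ne_zero hM hs) f hf
  refine ⟨f', 𝔪, hf', h𝔪, hp𝔪, fun ℓ hℓ hgood hℓMs hℓp => ?_⟩
  obtain ⟨a, ha, ha𝔪⟩ := hcong ℓ hℓ hgood (fun hd => hℓMs (hd.mul_right s)) hℓp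
  exact ⟨a, by rw [ha, hc ℓ hℓ hℓMs], ha𝔪⟩

/-- a squarefree `M` divisible by `3` has a multiple `N ∈ {2 M, 4 M}` with `4 ∣ N`, `3 ∥ N` and `N / 3`
cube-free and prime to `3`. -/
theorem exists_rigid_level {M : ℕ} (hM : 0 < M) (hsq : Squarefree M) (h3 : 3 ∣ M) :
    ∃ s : ℕ, s ≠ 0 ∧ 4 ∣ M * s ∧ 3 ∣ M * s ∧ ¬ 3 ^ 2 ∣ M * s ∧ 0 < M * s / 3 ∧ ¬ 3 ∣ M * s / 3 ∧
      IsCubeFree (M * s / 3) := by
  obtain ⟨M₁, rfl⟩ := h3
  have hM₁ : 0 < M₁ := by
    rcases Nat.eq_zero_or_pos M₁ with h | h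
    · rw [h] at hM; simp at hM
    · exact h
  have h3M₁ : ¬ 3 ∣ M₁ := by
    rintro ⟨c, rfl⟩
    have : (3 : ℕ) * 3 ∣ 3 * (3 * c) := ⟨c, by ring⟩
    exact absurd (hsq 3 this) (by decide)
  have hsq₁ : Squarefree M₁ := hsq.squarefree_of_dvd (Dvd.intro_left 3 rfl)
  by_cases h2 : 2 ∣ M₁
  · -- `s = 2`
    obtain ⟨M₂, rfl⟩ := h2
    have h2M₂ : ¬ 2 ∣ M₂ := by
      rintro ⟨c, rfl⟩
      have : (2 : ℕ) * 2 ∣ 2 * (2 * c) := ⟨c, by ring⟩
      exact absurd (hsq₁ 2 this) (by decide)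
    have hsq₂ : Squarefree M₂ := hsq₁.squarefree_of_dvd (Dvd.intro_left 2 rfl)
    have e : 3 * (2 * M₂) * 2 / 3 = 4 * M₂ := by
      rw [show 3 * (2 * M₂) * 2 = 3 * (4 * M₂) by ring, Nat.mul_div_cancel_left _ (by norm_num)]
    refine ⟨2, by norm_num, ⟨3 * M₂, by ring⟩, ⟨2 * M₂ * 2, by ring⟩, ?_, ?_, ?_, ?_⟩
    · rintro ⟨c, hc⟩
      apply h3M₁
      have h4 : 4 * M₂ = 3 * c := by
        have : 3 * (4 * M₂) = 3 * (3 * c) := by
          have hc' : 3 * (2 * M₂) * 2 = 3 * 3 * c := by rw [hc]; norm_num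
          rw [← mul_assoc 3 3 c, ← hc']; ring
        exact Nat.eq_of_mul_eq_mul_left (by norm_num) this
      have : 3 ∣ 4 * M₂ := ⟨c, h4⟩
      have : 3 ∣ M₂ := (Nat.Coprime.dvd_mul_left (by norm_num : Nat.Coprime 3 4)).1 this
      exact this.mul_left 2
    · rw [e]; omega
    · rw [e]
      intro h
      have : 3 ∣ M₂ := (Nat.Coprime.dvd_mul_left (by norm_num : Nat.Coprime 3 4)).1 h
      exact h3M₁ (this.mul_left 2)
    · rw [e]
      intro q hq hq3
      by_cases hq2 : q = 2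
      · subst hq2
        have : (2 : ℕ) ∣ M₂ := by
          have h8 : 2 * 4 ∣ 4 * M₂ := by simpa using hq3
          obtain ⟨c, hc⟩ := h8
          exact ⟨c, by omega⟩
        exact h2M₂ this
      · have hcop : Nat.Coprime (q ^ 3) 4 := by
          have : Nat.Coprime q 2 := (Nat.coprime_primes hq Nat.prime_two).2 hq2
          have h4 : (4 : ℕ) = 2 ^ 2 := by norm_num
          rw [h4]
          exact Nat.Coprime.pow 3 2 this
        have hqM : q ^ 3 ∣ M₂ := hcop.dvd_of_dvd_mul_left hq3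
        have : q * q ∣ M₂ := dvd_trans ⟨q, by ring⟩ hqM
        exact hq.one_lt.ne' (Nat.isUnit_iff.mp (hsq₂ q this))
  · -- `s = 4`
    have e : 3 * M₁ * 4 / 3 = 4 * M₁ := by
      rw [show 3 * M₁ * 4 = 3 * (4 * M₁) by ring, Nat.mul_div_cancel_left _ (by norm_num)]
    refine ⟨4, by norm_num, ⟨3 * M₁, by ring⟩, ⟨M₁ * 4, by ring⟩, ?_, ?_, ?_, ?_⟩
    · rintro ⟨c, hc⟩
      apply h3M₁
      have h4 : 4 * M₁ = 3 * c := by
        have : 3 * (4 * M₁) = 3 * (3 * c) := by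
          have hc' : 3 * M₁ * 4 = 3 * 3 * c := by rw [hc]; norm_num
          rw [← mul_assoc 3 3 c, ← hc']; ring
        exact Nat.eq_of_mul_eq_mul_left (by norm_num) this
      have : 3 ∣ 4 * M₁ := ⟨c, h4⟩
      exact (Nat.Coprime.dvd_mul_left (by norm_num : Nat.Coprime 3 4)).1 this
    · rw [e]; omega
    · rw [e]
      intro h
      exact h3M₁ ((Nat.Coprime.dvd_mul_left (by norm_num : Nat.Coprime 3 4)).1 h)
    · rw [e]
      intro q hq hq3
      by_cases hq2 : q = 2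
      · subst hq2
        have : (2 : ℕ) ∣ M₁ := by
          have h8 : 2 * 4 ∣ 4 * M₁ := by simpa using hq3
          obtain ⟨c, hc⟩ := h8
          exact ⟨c, by omega⟩
        exact h2 this
      · have hcop : Nat.Coprime (q ^ 3) 4 := by
          have : Nat.Coprime q 2 := (Nat.coprime_primes hq Nat.prime_two).2 hq2
          have h4 : (4 : ℕ) = 2 ^ 2 := by norm_num
          rw [h4]
          exact Nat.Coprime.pow 3 2 this
        have hqM : q ^ 3 ∣ M₁ := hcop.dvd_of_dvd_mul_left hq3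
        have : q * q ∣ M₁ := dvd_trans ⟨q, by ring⟩ hqM
        exact hq.one_lt.ne' (Nat.isUnit_iff.mp (hsq₁ q this))

/-! ### `MRpBlock` -/

/-- a place over `p` at which `W[p]` is not inertia-irreducible has the ordinary shape -/
theorem exists_localOrdAt (hloc : LocalAtPStmt) {p : ℕ} (hp : p = 3 ∨ p = 5) (W : WeierstrassCurve ℤ)
    (hΔ : W.Δ ≠ 0) (hss : W.IsSemistableModel) (hirr : W.ModRepIsIrreducible p)
    (hgood : W.IsGoodPrimeFor p) (hord : ¬ ModPInertiaIrreducible W p) :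
    ∃ A : ValuationSubring Qb, A.LiesOverPrime p ∧ LocalOrdAt W p A := by
  unfold ModPInertiaIrreducible at hord
  push Not at hord
  obtain ⟨A, hA, L, hL, hL0, hL1⟩ := hord
  refine ⟨A, hA, ?_⟩
  rcases hloc p hp W hΔ hss hirr hgood A hA with h | h
  · exact h
  · rcases h L hL with h0 | h1
    · exact absurd h0 hL0
    · exact absurd h1 hL1

/-- **`MRpBlock` from its inputs.** -/
theorem mrpBlock_of_stmts (hQ1 : Q1WStmt) (hne : NonEisWStmt) (hloc : LocalAtPStmt)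
    (hG5 : GeomQStmt) : MRpBlock := by
  intro p hp W hΔ hss hirr hgood hnirr M hM hsq hpM hres
  have hpp : p.Prime := by rcases hp with rfl | rfl <;> norm_num
  have hp2 : p ≠ 2 := by rcases hp with rfl | rfl <;> norm_num
  obtain ⟨A, hA, hord⟩ := exists_localOrdAt hloc hp W hΔ hss hirr hgood hnirr
  rcases hp with rfl | rfl
  · -- `p = 3`: add the rigidifier `4`
    obtain ⟨s, hs, h4, h3, h9, hpos, h3', hcf⟩ := exists_rigid_level hM hsq hpM
    have hres' : W.IsResiduallyModularOfLevel 3 (M * s) := resMod_mul_right hM.ne' hs hres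
    haveI : NeZero (M * s) := ⟨Nat.mul_ne_zero hM.ne' hs⟩
    refine ⟨M * s / 3, hpos, h3', hcf, ?_⟩
    obtain ⟨G⟩ := Fermat.Agent.S59lib.P3.Geom3.geomQ3 (M * s) h3 (by simpa using h9) h4 A hA
    exact resMod_div_of_package hQ1 hne hpp hp2 W hΔ hirr h3 hord G hres'
  · -- `p = 5`
    haveI : NeZero M := ⟨hM.ne'⟩
    have h25 : ¬ 5 ^ 2 ∣ M := by
      intro h
      have : (5 : ℕ) * 5 ∣ M := by simpa [pow_two] using h
      exact absurd (hsq 5 this) (by decide)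
    have hcf : IsCubeFree (M / 5) :=
      isCubeFree_of_dvd (Nat.div_dvd_of_dvd hpM) (isCubeFree_of_squarefree hsq)
    have h5' : ¬ 5 ∣ M / 5 := by
      intro h
      apply h25
      obtain ⟨c, hc⟩ := h
      rw [pow_two]
      exact ⟨c, by rw [mul_assoc, ← hc, Nat.mul_div_cancel' hpM]⟩
    have hpos : 0 < M / 5 := Nat.div_pos (Nat.le_of_dvd hM hpM) (by norm_num)
    refine ⟨M / 5, hpos, h5', hcf, ?_⟩
    obtain ⟨G⟩ := hG5 M 5 hpp le_rfl hpM h25 A hA
    exact resMod_div_of_package hQ1 hne hpp hp2 W hΔ hirr hpM hord G hres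

end Fermat.Agent.S59lib.MRp

end
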