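/-
S59lib / MRp / Main  (helper6)  — Project I.

**`mrpBlock : MRpBlock` — Mazur–Ribet at `p` for a semistable curve with good ORDINARY reduction at `p`,
`p ∈ {3, 5}` (helper7's block of `S59lib/Iface`) IS A THEOREM.**

Inputs (all theorems): `LevelQ2.q1WStmt`, `LevelQ2.nonEisWStmt` (helper1: `W[p] ⊆ J₀(N)[p]` Hecke-equivariantly,
non-Eisenstein), `Ord.localAtPStmt` (helper9: ordinary or inertia-irreducible shape at every place over `p`),
`S44lib.geomQStmt_of_lift Q5.liftStmt_holds` (main: the geometric package for `p ≥ 5`), `P3.Geom3.geomQ3`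
(the geometric package for `p = 3`, `4 ∣ N`; inside `MRp/Assembly`).
-/
import Fermat.Agent.S59lib.MRp.Assembly
import Fermat.Agent.S59lib.LevelQ2.Q1W
import Fermat.Agent.S59lib.LevelQ2.NonEisW
import Fermat.Agent.S59lib.Ord.LocalAtP
import Fermat.Agent.S44lib.Geom
import Fermat.Agent.S44lib.Q5.C1.Final

set_option autoImplicit false

namespace Fermat.Agent.S59lib.MRp

/-- **Block MRP.** -/
theorem mrpBlock : MRpBlock :=
  mrpBlock_of_stmts Fermat.Agent.S59lib.LevelQ2.q1WStmt Fermat.Agent.S59lib.LevelQ2.nonEisWStmt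
    Fermat.Agent.S59lib.Ord.localAtPStmt
    (Fermat.Agent.S44lib.geomQStmt_of_lift Fermat.Agent.S44lib.Q5.liftStmt_holds)

end Fermat.Agent.S59lib.MRp
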